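/-
S48 (Deligne–Serre), brick A (nebentypus lemma), part 1 (helper248).

`slashStab k h` : the stabiliser of a function `h : ℍ → ℂ` under the weight-`k` slash action of
`GL₂(ℝ)`.  Group-theoretic core of "Lemma V": a subgroup `G` of `GL₂(ℝ)` containing `Γ₁(N)` and
`α Γ₁(N) α⁻¹`, `α = diag(p, 1)`, `p` a prime not dividing `N`, contains `α⁻¹ Γ₁(N) α`.
-/
import Mathlib
import Fermat.Prelude.Def_ModularForm_HeckeOperator

set_option autoImplicit false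

namespace Fermat.Agent.S48.Neben

open CongruenceSubgroup Matrix.SpecialLinearGroup UpperHalfPlane ModularForm
open scoped MatrixGroups ModularForm

/-- The stabiliser of `h` under the weight-`k` slash action. -/
def slashStab (k : ℤ) (h : ℍ → ℂ) : Subgroup (GL (Fin 2) ℝ) where
  carrier := {g | h ∣[k] g = h}
  mul_mem' := by
    intro a b ha hb
    have ha' : h ∣[k] a = h := ha
    have hb' : h ∣[k] b = h := hb
    show h ∣[k] (a * b) = h
    rw [SlashAction.slash_mul, ha', hb']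
  one_mem' := SlashAction.slash_one k h
  inv_mem' := by
    intro a ha
    have ha' : h ∣[k] a = h := ha
    show h ∣[k] a⁻¹ = h
    have h1 : (h ∣[k] a) ∣[k] a⁻¹ = h := by
      rw [← SlashAction.slash_mul, mul_inv_cancel, SlashAction.slash_one]
    rwa [ha'] at h1

lemma mem_slashStab {k : ℤ} {h : ℍ → ℂ} {g : GL (Fin 2) ℝ} :
    g ∈ slashStab k h ↔ h ∣[k] g = h := Iff.rfl

/-- The translation matrix `[[1, s], [0, 1]]`. -/
noncomputable def trans (s : ℝ) : GL (Fin 2) ℝ := upperTriangularGL 1 s 1 (by norm_num)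

lemma val_trans (s : ℝ) :
    ((trans s : GL (Fin 2) ℝ) : Matrix (Fin 2) (Fin 2) ℝ) = !![1, s; 0, 1] := rfl

/-- An element of `SL(2, ℤ)` from its entries. -/
def mkSL (a b c d : ℤ) (h : a * d - b * c = 1) : SL(2, ℤ) :=
  ⟨!![a, b; c, d], by rw [Matrix.det_fin_two_of]; exact h⟩

@[simp] lemma mkSL_00 (a b c d : ℤ) (h : a * d - b * c = 1) : (mkSL a b c d h) 0 0 = a := rfl
@[simp] lemma mkSL_01 (a b c d : ℤ) (h : a * d - b * c = 1) : (mkSL a b c d h) 0 1 = b := rfl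
@[simp] lemma mkSL_10 (a b c d : ℤ) (h : a * d - b * c = 1) : (mkSL a b c d h) 1 0 = c := rfl
@[simp] lemma mkSL_11 (a b c d : ℤ) (h : a * d - b * c = 1) : (mkSL a b c d h) 1 1 = d := rfl

lemma val_mapGL (g : SL(2, ℤ)) :
    ((mapGL ℝ g : GL (Fin 2) ℝ) : Matrix (Fin 2) (Fin 2) ℝ)
      = !![((g 0 0 : ℤ) : ℝ), ((g 0 1 : ℤ) : ℝ); ((g 1 0 : ℤ) : ℝ), ((g 1 1 : ℤ) : ℝ)] := by
  ext i j
  fin_cases i <;> fin_cases j <;> simp

lemma fin_two_ext {a b c d a' b' c' d' : ℝ} (h1 : a = a') (h2 : b = b') (h3 : c = c')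
    (h4 : d = d') : (!![a, b; c, d] : Matrix (Fin 2) (Fin 2) ℝ) = !![a', b'; c', d'] := by
  subst h1 h2 h3 h4; rfl

lemma sl_det_eq (g : SL(2, ℤ)) : g 0 0 * g 1 1 - g 0 1 * g 1 0 = 1 := by
  have h := g.det_coe
  rwa [Matrix.det_fin_two] at h

lemma trans_add (s t : ℝ) : trans (s + t) = trans s * trans t := by
  apply Units.ext
  rw [Units.val_mul, val_trans, val_trans, val_trans, Matrix.mul_fin_two]
  apply fin_two_ext <;> ring

lemma trans_zero : trans 0 = 1 := by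
  apply Units.ext
  rw [val_trans, Units.val_one, Matrix.one_fin_two]

lemma trans_nat_mul_mem (G : Subgroup (GL (Fin 2) ℝ)) {s : ℝ} (hs : trans s ∈ G) (n : ℕ) :
    trans (n * s) ∈ G := by
  induction n with
  | zero => simp [trans_zero, G.one_mem]
  | succ n ih =>
    have : ((n + 1 : ℕ) : ℝ) * s = n * s + s := by push_cast; ring
    rw [this, trans_add]
    exact G.mul_mem ih hs

lemma trans_conj {p : ℕ} (hp0 : p ≠ 0) (s : ℝ) :
    (heckeDiagMatrix p)⁻¹ * trans s * heckeDiagMatrix p = trans (s / p) := by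
  have hpR : (p : ℝ) ≠ 0 := by exact_mod_cast hp0
  rw [mul_assoc, inv_mul_eq_iff_eq_mul]
  apply Units.ext
  rw [Units.val_mul, Units.val_mul, val_trans, val_trans, val_heckeDiagMatrix hp0,
    Matrix.mul_fin_two, Matrix.mul_fin_two]
  apply fin_two_ext <;> field_simp <;> ring

section core

variable {N p : ℕ} (hp : p.Prime) (hpN : ¬ p ∣ N)
include hp hpN

/-- `trans (1/p)` is conjugate under `Γ₁(N)` to an element of `α Γ₁(N) α⁻¹`. -/
theorem trans_inv_mem (G : Subgroup (GL (Fin 2) ℝ))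
    (hG1 : ∀ γ ∈ Gamma1 N, mapGL ℝ γ ∈ G)
    (hG2 : ∀ γ ∈ Gamma1 N, heckeDiagMatrix p * mapGL ℝ γ * (heckeDiagMatrix p)⁻¹ ∈ G) :
    trans (1 / p) ∈ G := by
  have hp0 : p ≠ 0 := hp.ne_zero
  have hpR : (p : ℝ) ≠ 0 := by exact_mod_cast hp0
  have hcop : IsCoprime (p : ℤ) (N : ℤ) :=
    Nat.isCoprime_iff_coprime.mpr ((Nat.Prime.coprime_iff_not_dvd hp).mpr hpN)
  obtain ⟨d₀, y, hxy⟩ := hcop
  -- `d₀ * p + y * N = 1`; put `m := -y`, so `p * d₀ = 1 + N * m`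
  obtain ⟨m, hm⟩ : ∃ m : ℤ, m = -y := ⟨_, rfl⟩
  have hrel : (p : ℤ) * d₀ - m * N = 1 := by rw [hm]; linear_combination hxy
  have hrelR : (p : ℝ) * d₀ - m * N = 1 := by exact_mod_cast hrel
  have hdet0 : (1 : ℤ) * (p * d₀) - m * N = 1 := by linear_combination hrel
  have hdet1 : (1 + d₀ * N) * (1 - N * d₀) - d₀ ^ 2 * (-(N : ℤ) ^ 2) = 1 := by ring
  have hg0 : mkSL 1 m N (p * d₀) hdet0 ∈ Gamma1 N := by
    rw [Gamma1_mem]
    refine ⟨by simp, ?_, by simp⟩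
    have : ((p : ℤ) * d₀ : ℤ) = 1 + m * N := by linear_combination hrel
    simp [this]
  have hg1 : mkSL (1 + d₀ * N) (d₀ ^ 2) (-(N : ℤ) ^ 2) (1 - N * d₀) hdet1 ∈ Gamma1 N := by
    rw [Gamma1_mem]
    refine ⟨by simp, by simp, by simp⟩
  have key : trans (1 / p) * mapGL ℝ (mkSL 1 m N (p * d₀) hdet0) * heckeDiagMatrix p
      = mapGL ℝ (mkSL 1 m N (p * d₀) hdet0) * heckeDiagMatrix p
        * mapGL ℝ (mkSL (1 + d₀ * N) (d₀ ^ 2) (-(N : ℤ) ^ 2) (1 - N * d₀) hdet1) := by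
    apply Units.ext
    simp only [Units.val_mul, val_trans, val_mapGL, val_heckeDiagMatrix hp0, mkSL_00, mkSL_01,
      mkSL_10, mkSL_11, Matrix.mul_fin_two]
    push_cast
    apply fin_two_ext
    · field_simp
      linear_combination (-(N : ℝ)) * hrelR
    · field_simp
      linear_combination (-(p : ℝ) * d₀) * hrelR
    · ring
    · ring
  have h1 : trans (1 / p) = mapGL ℝ (mkSL 1 m N (p * d₀) hdet0)
      * (heckeDiagMatrix p * mapGL ℝ (mkSL (1 + d₀ * N) (d₀ ^ 2) (-(N : ℤ) ^ 2) (1 - N * d₀) hdet1)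
        * (heckeDiagMatrix p)⁻¹) * (mapGL ℝ (mkSL 1 m N (p * d₀) hdet0))⁻¹ := by
    rw [eq_mul_inv_iff_mul_eq, ← mul_assoc, ← mul_assoc, eq_mul_inv_iff_mul_eq]
    exact key
  rw [h1]
  exact G.mul_mem (G.mul_mem (hG1 _ hg0) (hG2 _ hg1)) (G.inv_mem (hG1 _ hg0))

end core

lemma mapGL_T_eq_trans : mapGL ℝ (mkSL 1 1 0 1 (by norm_num)) = trans 1 := by
  apply Units.ext
  rw [val_mapGL, val_trans]
  simp

lemma mkSL_T_mem (N : ℕ) : mkSL 1 1 0 1 (by norm_num) ∈ Gamma1 N := by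
  rw [Gamma1_mem]
  simp

section conj

variable {N p : ℕ} (hp : p.Prime)
include hp

/-- Case `p ∤ d` of `conj_mem`. -/
theorem conj_mem_of_not_dvd (G : Subgroup (GL (Fin 2) ℝ))
    (hG1 : ∀ γ ∈ Gamma1 N, mapGL ℝ γ ∈ G) (hu : trans (1 / p) ∈ G)
    (γ : SL(2, ℤ)) (hγ : γ ∈ Gamma1 N) (hd : ¬ (p : ℤ) ∣ γ 1 1) :
    (heckeDiagMatrix p)⁻¹ * mapGL ℝ γ * heckeDiagMatrix p ∈ G := by
  have hp0 : p ≠ 0 := hp.ne_zero
  have hpR : (p : ℝ) ≠ 0 := by exact_mod_cast hp0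
  have hpZ : (p : ℤ) ≠ 0 := by exact_mod_cast hp0
  have hdet := sl_det_eq γ
  obtain ⟨ha, hd1, hc⟩ := (Gamma1_mem N γ).mp hγ
  have hcop : IsCoprime (γ 1 1) (p : ℤ) :=
    ((Nat.prime_iff_prime_int.mp hp).coprime_iff_not_dvd.mpr hd).symm
  obtain ⟨x, y, hxy⟩ := hcop
  -- `x * d + y * p = 1`
  obtain ⟨n, hn⟩ : ∃ n : ℕ, (n : ℤ) = (γ 0 1 * x) % p :=
    ⟨((γ 0 1 * x) % p).toNat, Int.toNat_of_nonneg (Int.emod_nonneg _ hpZ)⟩
  obtain ⟨e, he⟩ : ∃ e : ℤ, γ 0 1 - n * γ 1 1 = p * e := by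
    refine ⟨γ 0 1 * y + (γ 0 1 * x) / p * γ 1 1, ?_⟩
    have h1 := Int.emod_add_mul_ediv (γ 0 1 * x) p
    rw [hn]
    linear_combination (-(γ 0 1)) * hxy - (γ 1 1) * h1
  have hdet' : (γ 0 0 - n * γ 1 0) * γ 1 1 - e * (p * γ 1 0) = 1 := by
    linear_combination hdet + (γ 1 0) * he
  have hmem : mkSL (γ 0 0 - n * γ 1 0) e (p * γ 1 0) (γ 1 1) hdet' ∈ Gamma1 N := by
    rw [Gamma1_mem]
    refine ⟨?_, by simpa using hd1, ?_⟩
    · simp only [mkSL_00]; push_cast; rw [ha, hc]; ring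
    · simp only [mkSL_10]; push_cast; rw [hc]; ring
  have key : mapGL ℝ γ * heckeDiagMatrix p = heckeDiagMatrix p * (trans ((n : ℝ) * (1 / p))
      * mapGL ℝ (mkSL (γ 0 0 - n * γ 1 0) e (p * γ 1 0) (γ 1 1) hdet')) := by
    have heR : ((γ 0 1 : ℤ) : ℝ) - n * ((γ 1 1 : ℤ) : ℝ) = p * e := by exact_mod_cast he
    apply Units.ext
    simp only [Units.val_mul, val_trans, val_mapGL, val_heckeDiagMatrix hp0, mkSL_00, mkSL_01,
      mkSL_10, mkSL_11, Matrix.mul_fin_two]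
    push_cast
    apply fin_two_ext
    · field_simp
      ring
    · field_simp
      linear_combination heR
    · ring
    · ring
  have h1 : (heckeDiagMatrix p)⁻¹ * mapGL ℝ γ * heckeDiagMatrix p = trans ((n : ℝ) * (1 / p))
      * mapGL ℝ (mkSL (γ 0 0 - n * γ 1 0) e (p * γ 1 0) (γ 1 1) hdet') := by
    rw [mul_assoc, inv_mul_eq_iff_eq_mul]
    exact key
  rw [h1]
  exact G.mul_mem (trans_nat_mul_mem G hu n) (hG1 _ hmem)

/-- A subgroup of `GL₂(ℝ)` containing `Γ₁(N)` and `trans (1/p)` contains `α⁻¹ Γ₁(N) α`,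
`α = diag(p, 1)`. -/
theorem conj_mem (G : Subgroup (GL (Fin 2) ℝ))
    (hG1 : ∀ γ ∈ Gamma1 N, mapGL ℝ γ ∈ G) (hu : trans (1 / p) ∈ G)
    (γ : SL(2, ℤ)) (hγ : γ ∈ Gamma1 N) :
    (heckeDiagMatrix p)⁻¹ * mapGL ℝ γ * heckeDiagMatrix p ∈ G := by
  have hp0 : p ≠ 0 := hp.ne_zero
  by_cases hd : (p : ℤ) ∣ γ 1 1
  · -- replace `γ` by `γ * T`
    have hdet := sl_det_eq γ
    have hT := mkSL_T_mem N
    have hγT : γ * mkSL 1 1 0 1 (by norm_num) ∈ Gamma1 N := (Gamma1 N).mul_mem hγ hT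
    have hentry : (γ * mkSL 1 1 0 1 (by norm_num)) 1 1 = γ 1 0 + γ 1 1 := by
      simp [Matrix.SpecialLinearGroup.coe_mul, Matrix.mul_apply, Fin.sum_univ_two]
    have hnd : ¬ (p : ℤ) ∣ (γ * mkSL 1 1 0 1 (by norm_num)) 1 1 := by
      rw [hentry]
      intro h
      have hc : (p : ℤ) ∣ γ 1 0 := (Int.dvd_add_left hd).mp h
      have h1 : (p : ℤ) ∣ 1 := by
        rw [← hdet]
        exact dvd_sub (Dvd.dvd.mul_left hd _) (Dvd.dvd.mul_left hc _)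
      have := Int.natAbs_dvd_natAbs.mpr h1
      simp at this
      exact hp.one_lt.ne' this
    have h2 := conj_mem_of_not_dvd hp G hG1 hu _ hγT hnd
    have h3 : (heckeDiagMatrix p)⁻¹ * trans 1 * heckeDiagMatrix p ∈ G := by
      rw [trans_conj hp0]; exact hu
    have h4 : (heckeDiagMatrix p)⁻¹ * mapGL ℝ γ * heckeDiagMatrix p
        = ((heckeDiagMatrix p)⁻¹ * mapGL ℝ (γ * mkSL 1 1 0 1 (by norm_num)) * heckeDiagMatrix p)
          * ((heckeDiagMatrix p)⁻¹ * trans 1 * heckeDiagMatrix p)⁻¹ := by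
      rw [map_mul, mapGL_T_eq_trans]
      group
    rw [h4]
    exact G.mul_mem h2 (G.inv_mem h3)
  · exact conj_mem_of_not_dvd hp G hG1 hu γ hγ hd

end conj

end Fermat.Agent.S48.Neben
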