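/-
S48 (Deligne–Serre), brick A (nebentypus lemma), part 2 (helper248).

"Lemma V": if `h : ℍ → ℂ` is holomorphic, of nonzero weight `k`, and both `h` and
`h ∣[k] diag(p, 1)` (i.e. `τ ↦ h (p τ)` up to a constant) are invariant under `Γ₁(N)`, where `p`
is a prime not dividing `N`, then `h = 0`.
-/
import Mathlib
import Fermat.Agent.S48.Neben.Stab

set_option autoImplicit false

namespace Fermat.Agent.S48.Neben

open CongruenceSubgroup Matrix.SpecialLinearGroup UpperHalfPlane ModularForm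
open scoped MatrixGroups ModularForm Manifold Topology

/-- Invariance of a function on the upper half plane under the weight `k` action of `Γ₁(N)`. -/
def Inv1 (N : ℕ) (k : ℤ) (h : ℍ → ℂ) : Prop :=
  ∀ γ ∈ Gamma1 N, h ∣[k] (mapGL ℝ γ) = h

section algebra

variable {N p : ℕ} (hp : p.Prime) (hpN : ¬ p ∣ N) {k : ℤ}
include hp hpN

lemma trans_inv_mem_stab {h : ℍ → ℂ} (h1 : Inv1 N k h)
    (h2 : Inv1 N k (h ∣[k] heckeDiagMatrix p)) : trans (1 / p) ∈ slashStab k h := by
  apply trans_inv_mem hp hpN (slashStab k h) h1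
  intro γ hγ
  rw [mem_slashStab, SlashAction.slash_mul, SlashAction.slash_mul, h2 γ hγ,
    ← SlashAction.slash_mul, mul_inv_cancel, SlashAction.slash_one]

lemma inv1_slash_inv {h : ℍ → ℂ} (h1 : Inv1 N k h)
    (h2 : Inv1 N k (h ∣[k] heckeDiagMatrix p)) : Inv1 N k (h ∣[k] (heckeDiagMatrix p)⁻¹) := by
  intro γ hγ
  have hu := trans_inv_mem_stab hp hpN h1 h2
  have hc := conj_mem hp (slashStab k h) h1 hu γ hγ
  rw [mem_slashStab] at hc
  rw [← SlashAction.slash_mul]
  have e : (heckeDiagMatrix p)⁻¹ * mapGL ℝ γ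
      = ((heckeDiagMatrix p)⁻¹ * mapGL ℝ γ * heckeDiagMatrix p) * (heckeDiagMatrix p)⁻¹ := by
    group
  rw [e, SlashAction.slash_mul, hc]

lemma trans_pow_mem (j : ℕ) : ∀ {h : ℍ → ℂ}, Inv1 N k h →
    Inv1 N k (h ∣[k] heckeDiagMatrix p) → trans (1 / (p : ℝ) ^ j) ∈ slashStab k h := by
  induction j with
  | zero =>
    intro h h1 _
    rw [pow_zero, div_one, ← mapGL_T_eq_trans, mem_slashStab]
    exact h1 _ (mkSL_T_mem N)
  | succ j ih =>
    intro h h1 h2
    have h1' := inv1_slash_inv hp hpN h1 h2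
    have h2' : Inv1 N k ((h ∣[k] (heckeDiagMatrix p)⁻¹) ∣[k] heckeDiagMatrix p) := by
      rw [← SlashAction.slash_mul, inv_mul_cancel, SlashAction.slash_one]
      exact h1
    have hm := ih h1' h2'
    rw [mem_slashStab] at hm ⊢
    have e : trans (1 / (p : ℝ) ^ (j + 1))
        = (heckeDiagMatrix p)⁻¹ * trans (1 / (p : ℝ) ^ j) * heckeDiagMatrix p := by
      rw [trans_conj hp.ne_zero]
      congr 1
      rw [pow_succ]
      field_simp
    rw [e, SlashAction.slash_mul, SlashAction.slash_mul, hm, ← SlashAction.slash_mul,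
      inv_mul_cancel, SlashAction.slash_one]

end algebra

/-! ### The slash action of a translation -/

lemma det_trans (s : ℝ) : ((trans s).det : ℝ) = 1 := by
  rw [Matrix.GeneralLinearGroup.val_det_apply, val_trans, Matrix.det_fin_two_of]
  ring

lemma det_trans_pos (s : ℝ) : 0 < ((trans s).det : ℝ) := by
  rw [det_trans]; exact one_pos

lemma σ_trans (s : ℝ) : UpperHalfPlane.σ (trans s) = .refl ℝ ℂ := by
  rw [UpperHalfPlane.σ, if_pos (det_trans_pos s)]

lemma denom_trans (s : ℝ) (τ : ℍ) : UpperHalfPlane.denom (trans s) τ = 1 := by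
  simp [UpperHalfPlane.denom, val_trans]

lemma coe_trans_smul (s : ℝ) (τ : ℍ) : ((trans s • τ : ℍ) : ℂ) = (τ : ℂ) + s := by
  rw [UpperHalfPlane.coe_smul_of_det_pos (det_trans_pos s)]
  simp [UpperHalfPlane.num, UpperHalfPlane.denom, val_trans]

lemma slash_trans_apply (k : ℤ) (s : ℝ) (f : ℍ → ℂ) (τ : ℍ) :
    (f ∣[k] trans s) τ = f (trans s • τ) := by
  rw [ModularForm.slash_apply, σ_trans, det_trans, denom_trans]
  simp

lemma ofComplex_add_real {w : ℂ} (hw : 0 < w.im) (s : ℝ) :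
    ofComplex (w + s) = trans s • ofComplex w := by
  apply UpperHalfPlane.ext
  have hw' : 0 < (w + (s : ℂ)).im := by simpa using hw
  rw [coe_trans_smul, ofComplex_apply_of_im_pos hw', ofComplex_apply_of_im_pos hw]

/-! ### Constancy -/

lemma comp_ofComplex_add {k : ℤ} {h : ℍ → ℂ} {s : ℝ} (hs : trans s ∈ slashStab k h) {w : ℂ}
    (hw : 0 < w.im) : (h ∘ ofComplex) (w + s) = (h ∘ ofComplex) w := by
  rw [mem_slashStab] at hs
  have := congrFun hs (ofComplex w)
  rw [slash_trans_apply] at this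
  rw [Function.comp_apply, Function.comp_apply, ofComplex_add_real hw, this]

lemma deriv_eq_zero_of_trans_mem {H : ℂ → ℂ} {w : ℂ} (hd : DifferentiableAt ℂ H w)
    {u : ℕ → ℝ} (hu0 : ∀ j, u j ≠ 0) (hu : Filter.Tendsto u Filter.atTop (𝓝 0))
    (hH : ∀ j, H (w + (u j : ℂ)) = H w) : deriv H w = 0 := by
  have h1 := hd.hasDerivAt.tendsto_slope_zero
  have hu' : Filter.Tendsto (fun j => ((u j : ℝ) : ℂ)) Filter.atTop (𝓝[≠] 0) := by
    rw [tendsto_nhdsWithin_iff]
    refine ⟨?_, Filter.Eventually.of_forall fun j => ?_⟩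
    · have := (Complex.continuous_ofReal.tendsto 0).comp hu
      rw [Complex.ofReal_zero] at this
      exact this
    · simpa using hu0 j
  have h2 := h1.comp hu'
  have h3 : Filter.Tendsto (fun _ : ℕ => (0 : ℂ)) Filter.atTop (𝓝 (deriv H w)) := by
    refine h2.congr fun j => ?_
    simp [hH j]
  exact (tendsto_nhds_unique h3 tendsto_const_nhds)

section const

variable {N p : ℕ} (hp : p.Prime) (hpN : ¬ p ∣ N) {k : ℤ}
include hp hpN

lemma const_of_inv1 {h : ℍ → ℂ} (hh : MDiff h) (h1 : Inv1 N k h)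
    (h2 : Inv1 N k (h ∣[k] heckeDiagMatrix p)) (τ τ' : ℍ) : h τ = h τ' := by
  have hdiff : DifferentiableOn ℂ (h ∘ ofComplex) {z | 0 < z.im} :=
    UpperHalfPlane.mdifferentiable_iff.mp hh
  have hp1 : (1 : ℝ) < p := by exact_mod_cast hp.one_lt
  have hp0 : (p : ℝ) ≠ 0 := by exact_mod_cast hp.ne_zero
  have hderiv : Set.EqOn (deriv (h ∘ ofComplex)) 0 {z | 0 < z.im} := by
    intro w hw
    have hw' : 0 < w.im := hw
    refine deriv_eq_zero_of_trans_mem (u := fun j => 1 / (p : ℝ) ^ j)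
      ((hdiff w hw).differentiableAt (isOpen_upperHalfPlaneSet.mem_nhds hw))
      (fun j => by positivity) ?_ ?_
    · simp only [one_div]
      exact tendsto_inv_atTop_zero.comp (tendsto_pow_atTop_atTop_of_one_lt hp1)
    · intro j
      exact comp_ofComplex_add (trans_pow_mem hp hpN j h1 h2) hw'
  have key := isOpen_upperHalfPlaneSet.is_const_of_deriv_eq_zero
    (convex_halfSpace_im_gt 0).isPreconnected hdiff hderiv
    (x := (τ : ℂ)) (y := (τ' : ℂ)) τ.im_pos τ'.im_pos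
  simpa using key

end const

lemma mkSL_L_mem (N : ℕ) : mkSL 1 0 N 1 (by ring) ∈ Gamma1 N := by
  rw [Gamma1_mem]
  simp

/-- **Lemma V.** A holomorphic function `h` of nonzero weight `k` such that both `h` and
`h ∣[k] diag(p, 1)` are `Γ₁(N)`-invariant, `p` a prime not dividing `N`, vanishes. -/
theorem lemmaV {N p : ℕ} [NeZero N] (hp : p.Prime) (hpN : ¬ p ∣ N) {k : ℤ} (hk : k ≠ 0)
    {h : ℍ → ℂ} (hh : MDiff h) (h1 : Inv1 N k h)
    (h2 : Inv1 N k (h ∣[k] heckeDiagMatrix p)) : h = 0 := by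
  have hc := const_of_inv1 hp hpN hh h1 h2
  have hL := h1 _ (mkSL_L_mem N)
  have hLI := congrFun hL UpperHalfPlane.I
  have e : h ∣[k] (mapGL ℝ (mkSL 1 0 N 1 (by ring))) = h ∣[k] (mkSL 1 0 N 1 (by ring)) := rfl
  rw [e, ModularForm.SL_slash_apply, hc _ UpperHalfPlane.I] at hLI
  have hden : denom (mkSL 1 0 (N : ℤ) 1 (by ring)) UpperHalfPlane.I = (N : ℂ) * Complex.I + 1 := by
    simp [UpperHalfPlane.denom]
  rw [hden] at hLI
  funext τ
  rw [hc τ UpperHalfPlane.I, Pi.zero_apply]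
  by_contra hne
  have h3 : ((N : ℂ) * Complex.I + 1) ^ (-k) = 1 := by
    have := mul_left_cancel₀ hne (hLI.trans (mul_one _).symm)
    exact this
  have h4 : ‖(N : ℂ) * Complex.I + 1‖ ^ (-k) = 1 := by
    rw [← norm_zpow, h3, norm_one]
  have hN : (0 : ℝ) < N := by exact_mod_cast Nat.pos_of_ne_zero (NeZero.ne N)
  have h5 : (1 : ℝ) < ‖(N : ℂ) * Complex.I + 1‖ := by
    have hsq : ‖(N : ℂ) * Complex.I + 1‖ ^ 2 = (N : ℝ) ^ 2 + 1 := by
      rw [Complex.sq_norm, Complex.normSq_apply]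
      simp
      ring
    by_contra hle
    push Not at hle
    have : ‖(N : ℂ) * Complex.I + 1‖ ^ 2 ≤ 1 := by
      have h0 := norm_nonneg ((N : ℂ) * Complex.I + 1)
      nlinarith
    nlinarith
  have h6 := (zpow_eq_one_iff_right₀ (norm_nonneg _) h5.ne').mp h4
  exact hk (by omega)

end Fermat.Agent.S48.Neben
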