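/-
S48 (Deligne–Serre), brick A (nebentypus lemma), part 3 (helper248).

The Hecke operator `T_p` on `Γ₁(N)`-invariant functions: for `p ∤ N` prime, `σ_p ∈ Γ₀(N)` with
lower-right entry `≡ p mod N` and `f` invariant under `Γ₁(N)` (weight `k`), the function
`∑_j f ∣ [[1, j], [0, p]] + (f ∣ σ_p) ∣ diag(p, 1)` is again `Γ₁(N)`-invariant.
-/
import Mathlib
import Fermat.Prelude.Thm_ModularForm_heckeT_slash_eq_self_of_mem_Gamma0
import Fermat.Agent.S48.Neben.LemmaV

set_option autoImplicit false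

namespace Fermat.Agent.S48.Neben

open CongruenceSubgroup Matrix.SpecialLinearGroup UpperHalfPlane ModularForm
open scoped MatrixGroups ModularForm OnePoint
open P2MW.S_ModularForm_heckeT_slash_eq_self_of_mem_Gamma0.ModularForm.HeckeSlashInvariance

/-! ### The lower-right entry mod `N` on `Γ₀(N)` -/

lemma lr_mul {N : ℕ} {x : SL(2, ℤ)} (hx : x ∈ Gamma0 N) (y : SL(2, ℤ)) :
    (((x * y) 1 1 : ℤ) : ZMod N) = ((x 1 1 : ℤ) : ZMod N) * ((y 1 1 : ℤ) : ZMod N) := by
  rw [Gamma0_mem] at hx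
  rw [Matrix.SpecialLinearGroup.coe_mul, Matrix.mul_apply, Fin.sum_univ_two]
  push_cast
  rw [hx]
  ring

lemma mem_Gamma1_iff_lr {N : ℕ} {g : SL(2, ℤ)} :
    g ∈ Gamma1 N ↔ g ∈ Gamma0 N ∧ ((g 1 1 : ℤ) : ZMod N) = 1 := by
  rw [Gamma1_mem, Gamma0_mem]
  constructor
  · rintro ⟨_, h2, h3⟩
    exact ⟨h3, h2⟩
  · rintro ⟨h3, h2⟩
    refine ⟨?_, h2, h3⟩
    have := congrArg (Int.cast : ℤ → ZMod N) (sl_det_eq g)
    push_cast at this
    rw [h2, h3] at this
    simpa using this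

/-- Weight of a coset representative: `p` at `∞`, `1` at finite points. -/
def wt (N p : ℕ) (x : OnePoint (ZMod p)) : ZMod N := x.elim (p : ZMod N) (fun _ => 1)

lemma wt_infty (N p : ℕ) : wt N p (∞ : OnePoint (ZMod p)) = (p : ZMod N) := rfl

lemma wt_coe (N p : ℕ) (j : ZMod p) : wt N p (j : OnePoint (ZMod p)) = 1 := rfl

lemma isUnit_wt {N p : ℕ} (hp : p.Prime) (hpN : ¬ p ∣ N) (x : OnePoint (ZMod p)) :
    IsUnit (wt N p x) := by
  induction x using OnePoint.rec with
  | infty =>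
    rw [wt_infty]
    exact (ZMod.isUnit_iff_coprime p N).mpr ((Nat.Prime.coprime_iff_not_dvd hp).mpr hpN)
  | coe j =>
    rw [wt_coe]
    exact isUnit_one

theorem heckeRep_mul_lr {N p : ℕ} [Fact p.Prime] (hpN : ¬ p ∣ N) (g : SL(2, ℤ))
    (hg : g ∈ Gamma0 N) (x : OnePoint (ZMod p)) :
    ∃ g' : SL(2, ℤ), g' ∈ Gamma0 N ∧
      ((g' 1 1 : ℤ) : ZMod N) * wt N p x = ((g 1 1 : ℤ) : ZMod N) * wt N p (redMatrix p g • x) ∧
      heckeRep p x * mapGL ℝ g = mapGL ℝ g' * heckeRep p (redMatrix p g • x) := by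
  have hcN : (N : ℤ) ∣ g 1 0 := (ZMod.intCast_zmod_eq_zero_iff_dvd _ _).mp (Gamma0_mem.mp hg)
  obtain ⟨g', hg', hmul⟩ := heckeRep_mul hpN g hcN x
  have hg'0 : ((g' 1 0 : ℤ) : ZMod N) = 0 := (ZMod.intCast_zmod_eq_zero_iff_dvd _ _).mpr hg'
  refine ⟨g', Gamma0_mem.mpr hg'0, ?_, hmul⟩
  have hp : p.Prime := Fact.out
  have hp0 : p ≠ 0 := hp.ne_zero
  have hpu : IsUnit ((p : ℕ) : ZMod N) :=
    (ZMod.isUnit_iff_coprime p N).mpr ((Nat.Prime.coprime_iff_not_dvd hp).mpr hpN)
  have h11 := congrArg (fun M : GL (Fin 2) ℝ => (M : Matrix (Fin 2) (Fin 2) ℝ) 1 1) hmul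
  simp only [Units.val_mul, val_mapGL] at h11
  generalize redMatrix p g • x = x' at h11 ⊢
  induction x using OnePoint.rec with
  | infty =>
    induction x' using OnePoint.rec with
    | infty =>
      rw [heckeRep_infty, val_heckeDiagMatrix hp0, Matrix.mul_fin_two, Matrix.mul_fin_two] at h11
      simp only [Matrix.of_apply, Matrix.cons_val', Matrix.cons_val_one,
        Matrix.cons_val_fin_one] at h11
      have h : (0 : ℤ) * g 0 1 + 1 * g 1 1 = g' 1 0 * 0 + g' 1 1 * 1 := by exact_mod_cast h11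
      have h' := congrArg (Int.cast : ℤ → ZMod N) h
      push_cast at h'
      rw [wt_infty]
      linear_combination -(p : ZMod N) * h'
    | coe j' =>
      rw [heckeRep_infty, heckeRep_coe, val_heckeDiagMatrix hp0, val_heckeMatrix hp0,
        Matrix.mul_fin_two, Matrix.mul_fin_two] at h11
      simp only [Matrix.of_apply, Matrix.cons_val', Matrix.cons_val_one,
        Matrix.cons_val_fin_one] at h11
      have h : (0 : ℤ) * g 0 1 + 1 * g 1 1 = g' 1 0 * (j'.val : ℤ) + g' 1 1 * (p : ℤ) := by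
        exact_mod_cast h11
      have h' := congrArg (Int.cast : ℤ → ZMod N) h
      push_cast at h'
      rw [hg'0] at h'
      rw [wt_infty, wt_coe]
      linear_combination -h'
  | coe j =>
    induction x' using OnePoint.rec with
    | infty =>
      rw [heckeRep_infty, heckeRep_coe, val_heckeDiagMatrix hp0, val_heckeMatrix hp0,
        Matrix.mul_fin_two, Matrix.mul_fin_two] at h11
      simp only [Matrix.of_apply, Matrix.cons_val', Matrix.cons_val_one,
        Matrix.cons_val_fin_one] at h11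
      have h : (0 : ℤ) * g 0 1 + (p : ℤ) * g 1 1 = g' 1 0 * 0 + g' 1 1 * 1 := by
        exact_mod_cast h11
      have h' := congrArg (Int.cast : ℤ → ZMod N) h
      push_cast at h'
      rw [wt_infty, wt_coe]
      linear_combination -h'
    | coe j' =>
      rw [heckeRep_coe, heckeRep_coe, val_heckeMatrix hp0, val_heckeMatrix hp0,
        Matrix.mul_fin_two, Matrix.mul_fin_two] at h11
      simp only [Matrix.of_apply, Matrix.cons_val', Matrix.cons_val_one,
        Matrix.cons_val_fin_one] at h11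
      have h : (0 : ℤ) * g 0 1 + (p : ℤ) * g 1 1 = g' 1 0 * (j'.val : ℤ) + g' 1 1 * (p : ℤ) := by
        exact_mod_cast h11
      have h' := congrArg (Int.cast : ℤ → ZMod N) h
      push_cast at h'
      rw [hg'0] at h'
      rw [wt_coe, wt_coe]
      apply hpu.mul_left_cancel
      linear_combination -h'

/-- The twisting element: `σ_p` at `∞`, `1` at finite points. -/
def sRep {p : ℕ} (γp : SL(2, ℤ)) (x : OnePoint (ZMod p)) : SL(2, ℤ) := x.elim γp (fun _ => 1)

lemma sRep_infty {p : ℕ} (γp : SL(2, ℤ)) : sRep γp (∞ : OnePoint (ZMod p)) = γp := rfl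

lemma sRep_coe {p : ℕ} (γp : SL(2, ℤ)) (j : ZMod p) : sRep γp (j : OnePoint (ZMod p)) = 1 := rfl

lemma sRep_mem {N p : ℕ} {γp : SL(2, ℤ)} (hγp : γp ∈ Gamma0 N) (x : OnePoint (ZMod p)) :
    sRep γp x ∈ Gamma0 N := by
  induction x using OnePoint.rec with
  | infty => exact hγp
  | coe j => exact (Gamma0 N).one_mem

lemma sRep_lr {N p : ℕ} {γp : SL(2, ℤ)} (hγp1 : ((γp 1 1 : ℤ) : ZMod N) = p)
    (x : OnePoint (ZMod p)) : (((sRep γp x) 1 1 : ℤ) : ZMod N) = wt N p x := by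
  induction x using OnePoint.rec with
  | infty => exact hγp1
  | coe j =>
    rw [sRep_coe, wt_coe]
    simp

/-- `T_p` (with the diamond operator in the last coset) preserves `Γ₁(N)`-invariance. -/
theorem inv1_hecke {N p : ℕ} (hp : p.Prime) (hpN : ¬ p ∣ N) (k : ℤ) {f : ℍ → ℂ}
    (hf : Inv1 N k f) (γp : SL(2, ℤ)) (hγp : γp ∈ Gamma0 N)
    (hγp1 : ((γp 1 1 : ℤ) : ZMod N) = p) :
    Inv1 N k (heckeU k p f + (f ∣[k] mapGL ℝ γp) ∣[k] heckeDiagMatrix p) := by
  have : Fact p.Prime := ⟨hp⟩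
  have hsum : heckeU k p f + (f ∣[k] mapGL ℝ γp) ∣[k] heckeDiagMatrix p
      = ∑ x : OnePoint (ZMod p), f ∣[k] (mapGL ℝ (sRep γp x) * heckeRep p x) := by
    rw [heckeU_eq_sum_zmod, add_comm]
    refine ((Fintype.sum_option
      (fun x : OnePoint (ZMod p) ↦ f ∣[k] (mapGL ℝ (sRep γp x) * heckeRep p x))).trans ?_).symm
    congr 1
    · exact SlashAction.slash_mul k _ _ f
    · refine Finset.sum_congr rfl fun j _ => ?_
      show f ∣[k] (mapGL ℝ 1 * heckeMatrix p j.val) = _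
      rw [map_one, one_mul]
  intro g hg
  have hg0 : g ∈ Gamma0 N := Gamma1_in_Gamma0 N hg
  have hg1 : ((g 1 1 : ℤ) : ZMod N) = 1 := (mem_Gamma1_iff_lr.mp hg).2
  rw [hsum, SlashAction.sum_slash]
  calc ∑ x : OnePoint (ZMod p), (f ∣[k] (mapGL ℝ (sRep γp x) * heckeRep p x)) ∣[k] mapGL ℝ g
      = ∑ x : OnePoint (ZMod p), f ∣[k] (mapGL ℝ (sRep γp (redMatrix p g • x))
          * heckeRep p (redMatrix p g • x)) := by
        refine Finset.sum_congr rfl fun x _ ↦ ?_
        obtain ⟨g', hg'0, hg'1, hmul⟩ := heckeRep_mul_lr hpN g hg0 x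
        generalize redMatrix p g • x = x' at hg'1 hmul ⊢
        have hmem0 : sRep γp x * g' * (sRep γp x')⁻¹ ∈ Gamma0 N :=
          (Gamma0 N).mul_mem ((Gamma0 N).mul_mem (sRep_mem hγp x) hg'0)
            ((Gamma0 N).inv_mem (sRep_mem hγp x'))
        have hmem : sRep γp x * g' * (sRep γp x')⁻¹ ∈ Gamma1 N := by
          rw [mem_Gamma1_iff_lr]
          refine ⟨hmem0, ?_⟩
          apply (isUnit_wt hp hpN x').mul_right_cancel
          rw [← sRep_lr hγp1 x', ← lr_mul hmem0, inv_mul_cancel_right, lr_mul (sRep_mem hγp x),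
            sRep_lr hγp1 x, sRep_lr hγp1 x', mul_comm, hg'1, hg1]
        have e : mapGL ℝ (sRep γp x) * heckeRep p x * mapGL ℝ g
            = mapGL ℝ (sRep γp x * g' * (sRep γp x')⁻¹)
              * (mapGL ℝ (sRep γp x') * heckeRep p x') := by
          rw [mul_assoc, hmul]
          simp only [map_mul, map_inv]
          group
        rw [← SlashAction.slash_mul, e, SlashAction.slash_mul, hf _ hmem]
    _ = ∑ x : OnePoint (ZMod p), f ∣[k] (mapGL ℝ (sRep γp x) * heckeRep p x) :=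
        Equiv.sum_comp (MulAction.toPerm (redMatrix p g))
          (fun x ↦ f ∣[k] (mapGL ℝ (sRep γp x) * heckeRep p x))

end Fermat.Agent.S48.Neben
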